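import Mathlib

/-!
# Furtwängler's principal ideal theorem, part 1: annihilating cocycles

Let `π : G →* Q` be a homomorphism to a commutative group and `D : G → B` a 1-cocycle with values in
a `ℤ[Q]`-module.  If `G` is generated by `x l` (`l : ι`) and `x l ^ e l` lies in the commutator
subgroup, there is an element of `ℤ[Q]` of augmentation `∏ e l` killing all `D g`.
-/

set_option autoImplicit false

open MonoidAlgebra
open scoped commutatorElement

namespace Fermat.Agent.CFT.Furt

noncomputable section

variable {G : Type*} [Group G] {Q : Type*} [CommGroup Q] (π : G →* Q)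
variable {B : Type*} [AddCommGroup B] (ρ : Representation ℤ Q B)

/-- The augmentation `ℤ[Q] → ℤ`. -/
def aug (Q : Type*) [CommGroup Q] : MonoidAlgebra ℤ Q →ₐ[ℤ] ℤ :=
  MonoidAlgebra.lift ℤ ℤ Q (1 : Q →* ℤ)

@[simp] lemma aug_of (q : Q) : aug Q (MonoidAlgebra.of ℤ Q q) = 1 := by
  simp [aug]

/-- 1-cocycles `G → B` for the action of `G` through `π`. -/
def IsCocycle (D : G → B) : Prop := ∀ g h, D (g * h) = D g + ρ (π g) (D h)

variable {π ρ}

namespace IsCocycle

variable {D : G → B} (hD : IsCocycle π ρ D)

include hD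

lemma map_one : D 1 = 0 := by
  have := hD 1 1
  rw [mul_one, _root_.map_one, _root_.map_one, Module.End.one_apply] at this
  exact left_eq_add.mp this

lemma map_inv (g : G) : D g⁻¹ = - ρ (π g)⁻¹ (D g) := by
  have h := hD g⁻¹ g
  rw [inv_mul_cancel, hD.map_one, _root_.map_inv] at h
  exact eq_neg_of_add_eq_zero_left h.symm

lemma map_mul_of_eq_one {a : G} (ha : π a = 1) (b : G) : D (a * b) = D a + D b := by
  rw [hD a b, ha, _root_.map_one, Module.End.one_apply]

lemma map_inv_of_eq_one {a : G} (ha : π a = 1) : D a⁻¹ = - D a := by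
  rw [hD.map_inv, ha, inv_one, _root_.map_one, Module.End.one_apply]

lemma map_commutatorElement (g h : G) :
    D ⁅g, h⁆ = (D g - ρ (π h) (D g)) - (D h - ρ (π g) (D h)) := by
  have hπ : π ⁅g, h⁆ = 1 := by
    rw [commutatorElement_def, map_mul, map_mul, map_mul, _root_.map_inv, _root_.map_inv]
    rw [mul_comm (π g) (π h), mul_inv_cancel_right, mul_inv_cancel]
  have h1 : ⁅g, h⁆ * (h * g) = g * h := by
    rw [commutatorElement_def]; group
  have h2 := hD.map_mul_of_eq_one hπ (h * g)
  rw [h1, hD g h, hD h g] at h2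
  have : D ⁅g, h⁆ = D g + ρ (π g) (D h) - (D h + ρ (π h) (D g)) := eq_sub_of_add_eq h2.symm
  rw [this]; abel

lemma map_pow (g : G) (n : ℕ) :
    D (g ^ n) = ρ.asAlgebraHom (∑ j ∈ Finset.range n, MonoidAlgebra.of ℤ Q (π g) ^ j) (D g) := by
  induction n with
  | zero => simp [hD.map_one]
  | succ n ih =>
    rw [pow_succ', hD g (g ^ n), ih, Finset.sum_range_succ', map_add, LinearMap.add_apply,
      pow_zero, _root_.map_one, Module.End.one_apply, add_comm]
    congr 1
    rw [← Representation.asAlgebraHom_of, ← Module.End.mul_apply, ← map_mul, Finset.mul_sum]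
    congr 2
    apply Finset.sum_congr rfl
    intro j _
    rw [pow_succ']

end IsCocycle

end

end Fermat.Agent.CFT.Furt
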