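import Fermat.Agent.Lib.CFT.Group.FurtCocycle

/-!
# Furtwängler's principal ideal theorem, part 2: the determinant trick
-/

set_option autoImplicit false

open MonoidAlgebra
open scoped commutatorElement

namespace Fermat.Agent.CFT.Furt

noncomputable section

variable {G : Type*} [Group G] {Q : Type*} [CommGroup Q] {π : G →* Q}
variable {B : Type*} [AddCommGroup B] {ρ : Representation ℤ Q B}
variable {ι : Type*} [Fintype ι] [DecidableEq ι]

/-- The combination map `c ↦ ∑ l, c l • d l`. -/
def comb (ρ : Representation ℤ Q B) (d : ι → B) : (ι → MonoidAlgebra ℤ Q) →ₗ[ℤ] B :=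
  ∑ l, ((LinearMap.applyₗ (d l)).comp (ρ.asAlgebraHom.toLinearMap)).comp (LinearMap.proj l)

lemma comb_apply (d : ι → B) (c : ι → MonoidAlgebra ℤ Q) :
    comb ρ d c = ∑ l, ρ.asAlgebraHom (c l) (d l) := by
  simp [comb, LinearMap.sum_apply]

lemma comb_single (d : ι → B) (l : ι) (μ : MonoidAlgebra ℤ Q) :
    comb ρ d (Pi.single l μ) = ρ.asAlgebraHom μ (d l) := by
  rw [comb_apply, Finset.sum_eq_single l]
  · rw [Pi.single_eq_same]
  · intro k _ hk
    rw [Pi.single_eq_of_ne hk, map_zero, LinearMap.zero_apply]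
  · intro h; exact absurd (Finset.mem_univ l) h

lemma asAlgebraHom_comb (d : ι → B) (μ : MonoidAlgebra ℤ Q) (c : ι → MonoidAlgebra ℤ Q) :
    ρ.asAlgebraHom μ (comb ρ d c) = comb ρ d (fun l => μ * c l) := by
  rw [comb_apply, comb_apply, map_sum]
  apply Finset.sum_congr rfl
  intro l _
  rw [map_mul, Module.End.mul_apply]

/-- The adjugate trick for module-valued vectors. -/
lemma det_smul_eq_zero (d : ι → B) (M : Matrix ι ι (MonoidAlgebra ℤ Q))
    (hM : ∀ k, ∑ l, ρ.asAlgebraHom (M k l) (d l) = 0) (j : ι) :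
    ρ.asAlgebraHom M.det (d j) = 0 := by
  have h1 : ∀ l, (M.adjugate * M) j l = if j = l then M.det else 0 := by
    intro l
    rw [Matrix.adjugate_mul, Matrix.smul_apply, Matrix.one_apply, smul_eq_mul]
    split_ifs <;> simp
  have h2 : ∑ l, ρ.asAlgebraHom ((M.adjugate * M) j l) (d l) = ρ.asAlgebraHom M.det (d j) := by
    rw [Finset.sum_eq_single j]
    · rw [h1 j, if_pos rfl]
    · intro l _ hl
      rw [h1 l, if_neg (Ne.symm hl), map_zero, LinearMap.zero_apply]
    · intro h; exact absurd (Finset.mem_univ j) h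
  rw [← h2]
  have h3 : ∀ l, ρ.asAlgebraHom ((M.adjugate * M) j l) (d l)
      = ∑ k, ρ.asAlgebraHom (M.adjugate j k) (ρ.asAlgebraHom (M k l) (d l)) := by
    intro l
    rw [Matrix.mul_apply, map_sum, LinearMap.sum_apply]
    apply Finset.sum_congr rfl
    intro k _
    rw [map_mul, Module.End.mul_apply]
  simp_rw [h3]
  rw [Finset.sum_comm]
  apply Finset.sum_eq_zero
  intro k _
  rw [← map_sum, hM k, map_zero]

variable (x : ι → G) {D : G → B}

/-- `D g` is a `ℤ[Q]`-combination of the `D (x l)`. -/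
lemma IsCocycle.mem_range_comb (hD : IsCocycle π ρ D)
    (hgen : Subgroup.closure (Set.range x) = ⊤) (g : G) :
    D g ∈ LinearMap.range (comb ρ (fun l => D (x l))) := by
  have hg : g ∈ Subgroup.closure (Set.range x) := hgen ▸ Subgroup.mem_top g
  induction hg using Subgroup.closure_induction with
  | mem y hy =>
    obtain ⟨l, rfl⟩ := hy
    exact ⟨Pi.single l 1, by rw [comb_single, _root_.map_one, Module.End.one_apply]⟩
  | one => rw [(IsCocycle.map_one hD)]; exact Submodule.zero_mem _
  | mul a b _ _ ha hb =>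
    rw [hD a b]
    refine Submodule.add_mem _ ha ?_
    obtain ⟨c, hc⟩ := hb
    refine ⟨fun l => MonoidAlgebra.of ℤ Q (π a) * c l, ?_⟩
    rw [← asAlgebraHom_comb, hc, Representation.asAlgebraHom_of]
  | inv a _ ha =>
    rw [IsCocycle.map_inv hD]
    refine Submodule.neg_mem _ ?_
    obtain ⟨c, hc⟩ := ha
    refine ⟨fun l => MonoidAlgebra.of ℤ Q (π a)⁻¹ * c l, ?_⟩
    rw [← asAlgebraHom_comb, hc, Representation.asAlgebraHom_of]

/-- The coefficient vectors with all augmentations zero. -/
def augKer (ι Q : Type*) [CommGroup Q] : Submodule ℤ (ι → MonoidAlgebra ℤ Q) where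
  carrier := {c | ∀ l, aug Q (c l) = 0}
  add_mem' ha hb l := by rw [Pi.add_apply, map_add, ha l, hb l, add_zero]
  zero_mem' l := by rw [Pi.zero_apply, map_zero]
  smul_mem' n c hc l := by rw [Pi.smul_apply, map_smul, hc l, smul_zero]

/-- For `a` in the commutator subgroup, `D a` is a combination of the `D (x l)` with coefficients
in the augmentation ideal. -/
lemma IsCocycle.mem_map_augKer (hD : IsCocycle π ρ D)
    (hgen : Subgroup.closure (Set.range x) = ⊤) {a : G} (ha : a ∈ commutator G) :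
    π a = 1 ∧ D a ∈ (augKer ι Q).map (comb ρ (fun l => D (x l))) := by
  rw [commutator_eq_closure] at ha
  induction ha using Subgroup.closure_induction with
  | mem y hy =>
    obtain ⟨g, h, rfl⟩ := hy
    have hπ : π ⁅g, h⁆ = 1 := by
      rw [commutatorElement_def, map_mul, map_mul, map_mul, _root_.map_inv, _root_.map_inv,
        mul_comm (π g) (π h), mul_inv_cancel_right, mul_inv_cancel]
    refine ⟨hπ, ?_⟩
    rw [IsCocycle.map_commutatorElement hD]
    have key : ∀ (u : G) (q : Q), D u - ρ q (D u)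
        ∈ (augKer ι Q).map (comb ρ (fun l => D (x l))) := by
      intro u q
      obtain ⟨c, hc⟩ := hD.mem_range_comb x hgen u
      refine ⟨fun l => (1 - MonoidAlgebra.of ℤ Q q) * c l, ?_, ?_⟩
      · intro l
        change aug Q ((1 - MonoidAlgebra.of ℤ Q q) * c l) = 0
        rw [map_mul, map_sub, _root_.map_one, aug_of, sub_self, zero_mul]
      · rw [← asAlgebraHom_comb, hc, map_sub, _root_.map_one, Representation.asAlgebraHom_of,
          LinearMap.sub_apply, Module.End.one_apply]
    exact Submodule.sub_mem _ (key g (π h)) (key h (π g))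
  | one => exact ⟨_root_.map_one π, by rw [(IsCocycle.map_one hD)]; exact Submodule.zero_mem _⟩
  | mul a b _ _ ha hb =>
    refine ⟨by rw [map_mul, ha.1, hb.1, one_mul], ?_⟩
    rw [IsCocycle.map_mul_of_eq_one hD ha.1]
    exact Submodule.add_mem _ ha.2 hb.2
  | inv a _ ha =>
    refine ⟨by rw [_root_.map_inv, ha.1, inv_one], ?_⟩
    rw [IsCocycle.map_inv_of_eq_one hD ha.1]
    exact Submodule.neg_mem _ ha.2

/-- **The annihilator**: there is an element of `ℤ[Q]` of augmentation `∏ e l` killing every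
value of the cocycle. -/
theorem IsCocycle.exists_annihilator (hD : IsCocycle π ρ D)
    (hgen : Subgroup.closure (Set.range x) = ⊤) (e : ι → ℕ)
    (hpow : ∀ l, x l ^ e l ∈ commutator G) :
    ∃ z : MonoidAlgebra ℤ Q, aug Q z = ∏ l, (e l : ℤ) ∧ ∀ g, ρ.asAlgebraHom z (D g) = 0 := by
  classical
  set d : ι → B := fun l => D (x l) with hd
  set Nk : ι → MonoidAlgebra ℤ Q :=
    fun k => ∑ j ∈ Finset.range (e k), MonoidAlgebra.of ℤ Q (π (x k)) ^ j with hNk
  have hν : ∀ k, ∃ ν : ι → MonoidAlgebra ℤ Q, (∀ l, aug Q (ν l) = 0) ∧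
      comb ρ d ν = D (x k ^ e k) := by
    intro k
    obtain ⟨ν, hν, h⟩ := (hD.mem_map_augKer x hgen (hpow k)).2
    exact ⟨ν, hν, h⟩
  choose ν hν0 hν1 using hν
  set M : Matrix ι ι (MonoidAlgebra ℤ Q) :=
    fun k => (Pi.single k (Nk k) - ν k : ι → MonoidAlgebra ℤ Q) with hM
  have hrel : ∀ k, ∑ l, ρ.asAlgebraHom (M k l) (d l) = 0 := by
    intro k
    rw [← comb_apply]
    change comb ρ d (Pi.single k (Nk k) - ν k) = 0
    rw [map_sub, comb_single, hν1 k, IsCocycle.map_pow hD, sub_self]
  have hdet := det_smul_eq_zero (ρ := ρ) d M hrel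
  refine ⟨M.det, ?_, ?_⟩
  · have h1 : aug Q M.det = ((aug Q : MonoidAlgebra ℤ Q →ₐ[ℤ] ℤ).mapMatrix M).det :=
      AlgHom.map_det _ _
    rw [h1]
    have h2 : (aug Q : MonoidAlgebra ℤ Q →ₐ[ℤ] ℤ).mapMatrix M
        = Matrix.diagonal (fun l => (e l : ℤ)) := by
      ext k l
      rw [AlgHom.mapMatrix_apply, Matrix.map_apply, Matrix.diagonal_apply]
      change aug Q ((Pi.single k (Nk k) - ν k : ι → MonoidAlgebra ℤ Q) l) = _
      rw [Pi.sub_apply, map_sub, hν0 k l, sub_zero]
      by_cases hkl : k = l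
      · subst hkl
        rw [Pi.single_eq_same, if_pos rfl, hNk]
        change aug Q (∑ j ∈ Finset.range (e k), MonoidAlgebra.of ℤ Q (π (x k)) ^ j) = _
        rw [map_sum]
        have : ∀ j ∈ Finset.range (e k), aug Q (MonoidAlgebra.of ℤ Q (π (x k)) ^ j) = 1 := by
          intro j _
          rw [_root_.map_pow, aug_of, one_pow]
        rw [Finset.sum_congr rfl this, Finset.sum_const, Finset.card_range, nsmul_eq_mul, mul_one]
      · rw [Pi.single_eq_of_ne (Ne.symm hkl), map_zero, if_neg hkl]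
    rw [h2, Matrix.det_diagonal]
  · intro g
    obtain ⟨c, hc⟩ := hD.mem_range_comb x hgen g
    rw [← hc, asAlgebraHom_comb, comb_apply]
    apply Finset.sum_eq_zero
    intro l _
    rw [mul_comm, map_mul, Module.End.mul_apply, hdet l, map_zero]

end

end Fermat.Agent.CFT.Furt
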