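import Fermat.Agent.Lib.CFT.Group.FurtDet

/-!
# Furtwängler's principal ideal theorem, part 3: invariant elements of `ℤ[Q]` and generators
-/

set_option autoImplicit false

open MonoidAlgebra
open scoped commutatorElement

namespace Fermat.Agent.CFT.Furt

noncomputable section

section norm

variable {Q : Type*} [CommGroup Q] [Fintype Q]

/-- The norm element of `ℤ[Q]`. -/
def normElt (Q : Type*) [CommGroup Q] [Fintype Q] : MonoidAlgebra ℤ Q :=
  ∑ q : Q, MonoidAlgebra.of ℤ Q q

lemma aug_normElt : aug Q (normElt Q) = Fintype.card Q := by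
  rw [normElt, map_sum]
  simp only [aug_of, Finset.sum_const, Finset.card_univ, nsmul_eq_mul, mul_one]

lemma coeff_normElt (r : Q) : (normElt Q).coeff r = 1 := by
  classical
  rw [normElt, MonoidAlgebra.coeff_sum, Finsupp.finset_sum_apply]
  simp only [MonoidAlgebra.of_apply, MonoidAlgebra.coeff_single]
  rw [Finset.sum_eq_single r]
  · rw [Finsupp.single_eq_same]
  · intro q _ hq
    rw [Finsupp.single_apply, if_neg hq]
  · intro h; exact absurd (Finset.mem_univ r) h

/-- An element of `ℤ[Q]` fixed by multiplication by all group elements and of augmentation `|Q|`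
is the norm element. -/
theorem eq_normElt_of_mul_of_eq (z : MonoidAlgebra ℤ Q)
    (h : ∀ q, z * MonoidAlgebra.of ℤ Q q = z) (haug : aug Q z = Fintype.card Q) :
    z = normElt Q := by
  have hcoeff : ∀ r, z.coeff r = z.coeff 1 := by
    intro r
    have h1 := congrArg (fun y : MonoidAlgebra ℤ Q => y.coeff 1) (h r⁻¹)
    simp only [MonoidAlgebra.of_apply, MonoidAlgebra.coeff_mul_single_apply, inv_inv, one_mul,
      mul_one] at h1
    exact h1
  have hz : z = z.coeff 1 • normElt Q := by
    apply MonoidAlgebra.coeff_injective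
    ext r
    rw [MonoidAlgebra.coeff_smul_apply, coeff_normElt, smul_eq_mul, mul_one, hcoeff r]
  have h2 : aug Q z = z.coeff 1 * Fintype.card Q := by
    conv_lhs => rw [hz]
    rw [map_smul, aug_normElt, smul_eq_mul]
  rw [haug] at h2
  have hcard : (Fintype.card Q : ℤ) ≠ 0 := by
    exact_mod_cast Fintype.card_ne_zero
  have h3 : z.coeff 1 = 1 := by
    have : (1 : ℤ) * Fintype.card Q = z.coeff 1 * Fintype.card Q := by rw [one_mul]; exact h2
    exact (mul_right_cancel₀ hcard this).symm
  rw [hz, h3, one_smul]

end norm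

section generators

universe u

variable (G : Type u) [Group G] [Finite G]

/-- Generators of a finite group adapted to its abelianization. -/
theorem exists_generators :
    ∃ (ι : Type u) (_ : Fintype ι) (_ : DecidableEq ι) (x : ι → G) (e : ι → ℕ),
      Subgroup.closure (Set.range x) = ⊤ ∧ (∀ l, x l ^ e l ∈ commutator G) ∧
      ∏ l, (e l : ℤ) = Nat.card (Abelianization G) := by
  classical
  obtain ⟨ι₀, hι₀, n, hn, ⟨φ⟩⟩ :=
    CommGroup.equiv_prod_multiplicative_zmod_of_finite (Abelianization G)
  haveI : ∀ i, NeZero (n i) := fun i => ⟨by have := hn i; omega⟩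
  -- generators of the abelianization and lifts
  let q : ι₀ → Abelianization G := fun i => φ.symm (Pi.mulSingle i (Multiplicative.ofAdd 1))
  have hlift : ∀ i, ∃ g : G, Abelianization.of g = q i := fun i =>
    QuotientGroup.mk_surjective (q i)
  choose g hg using hlift
  haveI : Fintype (commutator G) := Fintype.ofFinite _
  let x : ULift.{u} ι₀ ⊕ commutator G → G := Sum.elim (fun i => g i.down) (fun a => (a : G))
  refine ⟨ULift.{u} ι₀ ⊕ commutator G, inferInstance, inferInstance,
    x, Sum.elim (fun i => n i.down) (fun _ => 1), ?_, ?_, ?_⟩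
  · -- generation
    set H := Subgroup.closure (Set.range x) with hH
    have hcomm : commutator G ≤ H := by
      intro a ha
      exact Subgroup.subset_closure ⟨Sum.inr ⟨a, ha⟩, rfl⟩
    have hgH : ∀ i, g i ∈ H := fun i => Subgroup.subset_closure ⟨Sum.inl ⟨i⟩, rfl⟩
    let ψ : G →* ((i : ι₀) → Multiplicative (ZMod (n i))) :=
      φ.toMonoidHom.comp Abelianization.of
    have hψg : ∀ i, ψ (g i) = Pi.mulSingle i (Multiplicative.ofAdd 1) := by
      intro i
      change φ (Abelianization.of (g i)) = _
      rw [hg i]
      exact φ.apply_symm_apply _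
    have hK : H.map ψ = ⊤ := by
      rw [eq_top_iff]
      intro f _
      have hf : f = ∏ i, Pi.mulSingle i (f i) := (Finset.univ_prod_mulSingle f).symm
      rw [hf]
      refine Subgroup.prod_mem _ (fun i _ => ?_)
      have hy2 : Pi.mulSingle (M := fun i => Multiplicative (ZMod (n i))) i (f i)
          = (Pi.mulSingle i (Multiplicative.ofAdd 1)) ^ (Multiplicative.toAdd (f i)).val := by
        rw [← Pi.mulSingle_pow]
        congr 1
        rw [← ofAdd_nsmul, nsmul_eq_mul, mul_one, ZMod.natCast_zmod_val]
        rfl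
      rw [hy2, ← hψg i, ← map_pow]
      exact Subgroup.mem_map_of_mem ψ (Subgroup.pow_mem _ (hgH i) _)
    rw [eq_top_iff]
    intro a _
    have ha : ψ a ∈ H.map ψ := hK ▸ Subgroup.mem_top _
    obtain ⟨h, hh, hha⟩ := ha
    have hha' : Abelianization.of h = Abelianization.of a := φ.injective hha
    have : a * h⁻¹ ∈ commutator G := by
      rw [← Abelianization.ker_of G, MonoidHom.mem_ker, map_mul, map_inv, hha', mul_inv_cancel]
    have h2 := H.mul_mem (hcomm this) hh
    rwa [inv_mul_cancel_right] at h2
  · rintro (i | a)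
    · change g i.down ^ n i.down ∈ commutator G
      rw [← Abelianization.ker_of G, MonoidHom.mem_ker, map_pow, hg i.down]
      change (φ.symm (Pi.mulSingle i.down (Multiplicative.ofAdd 1))) ^ n i.down = 1
      rw [← map_pow, ← Pi.mulSingle_pow, ← ofAdd_nsmul, nsmul_eq_mul, mul_one,
        ZMod.natCast_self, ofAdd_zero, Pi.mulSingle_one, map_one]
    · change (a : G) ^ 1 ∈ commutator G
      rw [pow_one]; exact a.2
  · rw [Fintype.prod_sum_type]
    simp only [Sum.elim_inl, Sum.elim_inr, Nat.cast_one, Finset.prod_const_one, mul_one]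
    rw [Nat.card_congr φ.toEquiv, Nat.card_pi]
    push_cast
    rw [← Equiv.ulift.symm.prod_comp]
    apply Finset.prod_congr rfl
    intro i _
    rw [show Nat.card (Multiplicative (ZMod (n i))) = Nat.card (ZMod (n i)) from rfl,
      Nat.card_zmod]
    rfl

end generators

end

end Fermat.Agent.CFT.Furt
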