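import Fermat.Agent.Lib.CFT.Group.FurtNorm

/-!
# Furtwängler's principal ideal theorem (group-theoretic form)

For a finite group `G` with commutator subgroup `G'`, the transfer `G → G' / G''` is trivial.
-/

set_option autoImplicit false

open MonoidAlgebra
open scoped commutatorElement

namespace Fermat.Agent.CFT.Furt

noncomputable section

universe u

variable {G : Type u} [Group G]

local notation "Q" => Abelianization G
local notation "Abar" => Additive (Abelianization (commutator G))

/-- Translation representation of `Q` on functions `Q → Ā`. -/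
def transRep (G : Type u) [Group G] : Representation ℤ Q (Q → Abar) where
  toFun r := LinearMap.funLeft ℤ Abar (fun q => r⁻¹ * q)
  map_one' := by
    ext φ q
    simp [LinearMap.funLeft]
  map_mul' r s := by
    ext φ q
    simp [LinearMap.funLeft, mul_assoc, mul_comm]

lemma transRep_apply (r : Q) (φ : Q → Abar) (q : Q) : transRep G r φ q = φ (r⁻¹ * q) := rfl

/-- The norm element acts on functions by summation. -/
lemma asAlgebraHom_normElt_apply [Fintype Q] (φ : Q → Abar) (q : Q) :
    (transRep G).asAlgebraHom (normElt Q) φ q = ∑ r, φ r := by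
  rw [normElt, map_sum, LinearMap.sum_apply, Finset.sum_apply]
  simp only [Representation.asAlgebraHom_of, transRep_apply]
  exact Fintype.sum_equiv ((Equiv.inv Q).trans (Equiv.mulRight q)) _ _ (fun r => rfl)

/-- A set-theoretic section of `G → Q`. -/
def sec (q : Q) : G := Quotient.out (s := QuotientGroup.leftRel (commutator G)) q

lemma of_sec (q : Q) : Abelianization.of (sec q) = q :=
  Quotient.out_eq' (s₁ := QuotientGroup.leftRel (commutator G)) q

lemma smul_eq_of_mul (g : G) (q : G ⧸ commutator G) :
    g⁻¹ • q = (Abelianization.of g)⁻¹ * (show Q from q) := by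
  induction q using QuotientGroup.induction_on with
  | H h => rfl

lemma transferElt_mem (g : G) (q : Q) :
    (sec q)⁻¹ * g * sec ((Abelianization.of g)⁻¹ * q) ∈ commutator G := by
  have h : (sec q)⁻¹ * g * sec ((Abelianization.of g)⁻¹ * q)
      ∈ (Abelianization.of : G →* Q).ker := by
    rw [MonoidHom.mem_ker, map_mul, map_mul, map_inv, of_sec, of_sec, mul_assoc,
      mul_inv_cancel_left, inv_mul_cancel]
  rw [Abelianization.ker_of] at h
  exact h

/-- The transfer cocycle. -/
def tcoc (g : G) : Q → Abar := fun q =>
  Additive.ofMul (Abelianization.of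
    (⟨(sec q)⁻¹ * g * sec ((Abelianization.of g)⁻¹ * q), transferElt_mem g q⟩ : commutator G))

lemma isCocycle_tcoc : IsCocycle (Abelianization.of : G →* Q) (transRep G) tcoc := by
  intro g h
  funext q
  rw [Pi.add_apply, transRep_apply]
  unfold tcoc
  rw [← ofMul_mul, ← map_mul]
  congr 2
  apply Subtype.ext
  simp only [Subgroup.coe_mul, map_mul, mul_inv_rev, mul_assoc]
  group

/-- The transfer is the sum of the values of the transfer cocycle. -/
lemma transfer_eq_sum [Finite G] (g : G) :
    Additive.ofMul (MonoidHom.transfer
      (Abelianization.of : commutator G →* Abelianization (commutator G)) g)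
      = ∑ q ∈ (@Finset.univ (G ⧸ commutator G) (commutator G).fintypeQuotientOfFiniteIndex),
          tcoc g q := by
  classical
  let T : (commutator G).LeftTransversal :=
    ⟨Set.range Quotient.out, Subgroup.isComplement_range_left Quotient.out_eq'⟩
  rw [MonoidHom.transfer_def _ T g, Subgroup.leftTransversals.diff, ofMul_prod]
  refine Finset.sum_congr rfl ?_
  intro q _
  unfold tcoc
  congr 2
  apply Subtype.ext
  change ((T.2.leftQuotientEquiv q : G))⁻¹ * ((g • T).2.leftQuotientEquiv q : G)
    = (sec (show Q from q))⁻¹ * g * sec ((Abelianization.of g)⁻¹ * (show Q from q))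
  rw [Subgroup.smul_apply_eq_smul_apply_inv_smul,
    Subgroup.IsComplement.leftQuotientEquiv_apply Quotient.out_eq',
    Subgroup.IsComplement.leftQuotientEquiv_apply Quotient.out_eq', smul_eq_mul, ← mul_assoc]
  congr 2

/-- **Furtwängler's principal ideal theorem**: for a finite group `G`, the transfer from `G` to the
abelianization of its commutator subgroup is trivial. -/
theorem transfer_commutator_eq_one [Finite G] (g : G) :
    MonoidHom.transfer
      (Abelianization.of : commutator G →* Abelianization (commutator G)) g = 1 := by
  classical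
  letI : Fintype Q := (commutator G).fintypeQuotientOfFiniteIndex
  obtain ⟨ι, hι, hdec, x, e, hgen, hpow, hprod⟩ := exists_generators G
  -- the cocycle with values in `(Q → Ā) × ℤ[Q]`
  let ρ₂ : Representation ℤ Q (MonoidAlgebra ℤ Q) := Representation.ofMulAction ℤ Q Q
  let ρ := (transRep G).prod ρ₂
  let D : G → (Q → Abar) × MonoidAlgebra ℤ Q :=
    fun g => (tcoc g, MonoidAlgebra.of ℤ Q (Abelianization.of g) - 1)
  have hD : IsCocycle (Abelianization.of : G →* Q) ρ D := by
    intro g h
    apply Prod.ext
    · exact isCocycle_tcoc g h
    · change MonoidAlgebra.of ℤ Q (Abelianization.of (g * h)) - 1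
        = (MonoidAlgebra.of ℤ Q (Abelianization.of g) - 1)
          + ρ₂ (Abelianization.of g) (MonoidAlgebra.of ℤ Q (Abelianization.of h) - 1)
      have : ρ₂ (Abelianization.of g) (MonoidAlgebra.of ℤ Q (Abelianization.of h) - 1)
          = MonoidAlgebra.of ℤ Q (Abelianization.of g)
            * (MonoidAlgebra.of ℤ Q (Abelianization.of h) - 1) := by
        rw [← Representation.asAlgebraHom_of, Representation.asAlgebraHom_ofMulAction_smul_eq_mul]
      rw [this, map_mul, map_mul]
      ring
  obtain ⟨z, hzaug, hz⟩ := hD.exists_annihilator x hgen e hpow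
  -- components of the action
  have hfst : ∀ (w : MonoidAlgebra ℤ Q) (b : (Q → Abar) × MonoidAlgebra ℤ Q),
      (ρ.asAlgebraHom w b).1 = (transRep G).asAlgebraHom w b.1 := by
    intro w b
    induction w using MonoidAlgebra.induction_on with
    | of q => simp [ρ]
    | add a c ha hc => simp only [map_add, LinearMap.add_apply, Prod.fst_add, ha, hc]
    | smul n a ha => simp only [map_smul, LinearMap.smul_apply, Prod.smul_fst, ha]
  have hsnd : ∀ (w : MonoidAlgebra ℤ Q) (b : (Q → Abar) × MonoidAlgebra ℤ Q),
      (ρ.asAlgebraHom w b).2 = w * b.2 := by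
    intro w b
    rw [← Representation.asAlgebraHom_ofMulAction_smul_eq_mul]
    induction w using MonoidAlgebra.induction_on with
    | of q => simp [ρ, ρ₂]
    | add a c ha hc => simp only [map_add, LinearMap.add_apply, Prod.snd_add, ha, hc]
    | smul n a ha => simp only [map_smul, LinearMap.smul_apply, Prod.smul_snd, ha]
  -- `z` is the norm element
  have hznorm : z = normElt Q := by
    apply eq_normElt_of_mul_of_eq
    · intro q
      obtain ⟨g, rfl⟩ := QuotientGroup.mk_surjective q
      have h1 := congrArg Prod.snd (hz g)
      rw [hsnd] at h1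
      change z * (MonoidAlgebra.of ℤ Q (Abelianization.of g) - 1) = 0 at h1
      rw [mul_sub, mul_one, sub_eq_zero] at h1
      exact h1
    · rw [hzaug, hprod, Nat.card_eq_fintype_card]
  -- conclusion
  have h2 := congrArg Prod.fst (hz g)
  rw [hfst, hznorm] at h2
  have h3 := congrFun h2 1
  change (transRep G).asAlgebraHom (normElt Q) (tcoc g) 1 = 0 at h3
  rw [asAlgebraHom_normElt_apply] at h3
  have h4 : Additive.ofMul (MonoidHom.transfer
      (Abelianization.of : commutator G →* Abelianization (commutator G)) g) = 0 :=
    (transfer_eq_sum g).trans h3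
  exact h4

end

end Fermat.Agent.CFT.Furt

namespace Fermat.Agent.CFT.Furt

universe u v

/-- The transfer commutes with post-composition by a homomorphism of commutative groups. -/
theorem transfer_comp {G : Type u} [Group G] {H : Subgroup G} [H.FiniteIndex]
    {A A' : Type*} [CommGroup A] [CommGroup A'] (ϕ : H →* A) (f : A →* A') (g : G) :
    MonoidHom.transfer (f.comp ϕ) g = f (MonoidHom.transfer ϕ g) := by
  classical
  let T : H.LeftTransversal := default
  rw [MonoidHom.transfer_def _ T, MonoidHom.transfer_def _ T, Subgroup.leftTransversals.diff,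
    Subgroup.leftTransversals.diff, map_prod]
  rfl

/-- **Furtwängler's principal ideal theorem**, general coefficient form: for a finite group `G`,
the transfer of any homomorphism from the commutator subgroup to a commutative group is trivial. -/
theorem transfer_commutator_eq_one' {G : Type u} [Group G] [Finite G] {A : Type v} [CommGroup A]
    (ϕ : commutator G →* A) (g : G) : MonoidHom.transfer ϕ g = 1 := by
  have h : ϕ = (Abelianization.lift ϕ).comp Abelianization.of := by
    ext a; simp
  rw [h, transfer_comp, transfer_commutator_eq_one, map_one]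

end Fermat.Agent.CFT.Furt
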